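import Fermat.Agent.LT.T6.H385.QuatSpec
import Fermat.Agent.LT.T6.H305.Sys

/-!
# Row LT, tower T6, sub-leaf T6.18i.0 `SphFinSuppC385` (helper392, registry row 1303) — OFF-MAIN

`sphFinSuppC392 : H385.SphFinSuppC385`, VERBATIM against `T6/H385/QuatSpec.lean`
(sha256 `03a0bab8904d…`, helper385@3e19135ad) on `T6/Spec.lean` `8c5f2ae7a3cd…`.

Proof.  The Cartan invariant is dominant (`v(det g) ≤ entryMax g ^ 2`), so a `g` with
`F (cartan g) ≠ 0` has `cartan g = (n + b, b)` with `(n + b, b)` in the finite support of `F`, and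
the Hermite normal form of helper305 (`T6/H305/Sys.lean`, `ResData.fam_cover`, byte-identical
copies of origin/helper305@21100fca5: `Basic` `43b683a7…`, `Digits` `0b08096c…`, `Mat` `95520e09…`,
`Hnf` `875cfd02…`, `Sys` `de1fcb16…`) puts `g` into one of the finitely many cosets
`ϖ^b [[ϖ^i, r], [0, ϖ^j]] GL₂(𝒪)`, `i + j = n`, `r` in the digit system `R i`.
-/

set_option autoImplicit false

open scoped Matrix

noncomputable section

namespace Fermat.Agent.LT.T6.H392

open Fermat.Agent.LT.T6 Fermat.Agent.LT.T6.H305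

variable {k : Type} [Field k] [Valued k Γ₀]

/-- The valuation of the determinant is at most the square of the largest valuation of an
entry. -/
theorem val_det_le_entryMax_sq392 (g : GL (Fin 2) k) :
    Valued.v (g : Matrix (Fin 2) (Fin 2) k).det ≤ entryMax g * entryMax g := by
  rw [Matrix.det_fin_two]
  refine Valuation.map_sub_le _ ?_ ?_
  · rw [map_mul]; exact mul_le_mul' (le_entryMax g 0 0) (le_entryMax g 1 1)
  · rw [map_mul]; exact mul_le_mul' (le_entryMax g 0 1) (le_entryMax g 1 0)

/-- The Cartan invariant is dominant. -/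
theorem cartan_dominant392 (g : GL (Fin 2) k) : (cartan g).2 ≤ (cartan g).1 := by
  have h1 : WithZero.log (Valued.v (g : Matrix (Fin 2) (Fin 2) k).det)
      ≤ WithZero.log (entryMax g * entryMax g) :=
    (WithZero.log_le_log (val_det_ne_zero g)
      (mul_ne_zero (entryMax_ne_zero g) (entryMax_ne_zero g))).2 (val_det_le_entryMax_sq392 g)
  rw [WithZero.log_mul (entryMax_ne_zero g) (entryMax_ne_zero g)] at h1
  show - WithZero.log (entryMax g)
    ≤ WithZero.log (entryMax g) - WithZero.log (Valued.v (g : Matrix (Fin 2) (Fin 2) k).det)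
  omega

/-- Every `g` lies in one of the explicit cosets of its Cartan type. -/
theorem exists_fam392 (D : ResData k) (g : GL (Fin 2) k) :
    ∃ x ∈ D.Idx ((cartan g).1 - (cartan g).2).toNat,
      InU 0 ((D.fam (cartan g).2 x)⁻¹ * g) := by
  have hdom := cartan_dominant392 g
  have hc : cartan g
      = (((((cartan g).1 - (cartan g).2).toNat : ℕ) : ℤ) + (cartan g).2, (cartan g).2) := by
    rw [Int.toNat_of_nonneg (by omega)]
    exact Prod.ext (by simp) rfl
  obtain ⟨x, hx, hK⟩ := D.fam_cover (cartan g).2 ((cartan g).1 - (cartan g).2).toNat g hc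
  exact ⟨x, hx, (inU_zero_iff _).2 hK⟩

/-- **T6.18i.0 `SphFinSuppC385`**: a function of the Cartan invariant with finite support on
`ℤ × ℤ` is supported on finitely many cosets `x GL₂(𝒪)`. -/
theorem sphFinSuppC392 : H385.SphFinSuppC385 := by
  intro k _ _ q hk F
  obtain ⟨D, -⟩ := exists_resData hk
  classical
  refine ⟨F.support.biUnion
    (fun lam => (D.Idx (lam.1 - lam.2).toNat).image (D.fam lam.2)), ?_⟩
  intro g hg
  have hmem : cartan g ∈ F.support := Finsupp.mem_support_iff.mpr hg
  obtain ⟨x, hx, hU⟩ := exists_fam392 D g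
  refine ⟨D.fam (cartan g).2 x, ?_, (D.fam (cartan g).2 x)⁻¹ * g, hU,
    (mul_inv_cancel_left _ _).symm⟩
  exact Finset.mem_biUnion.2 ⟨cartan g, hmem, Finset.mem_image.2 ⟨x, hx, rfl⟩⟩

end Fermat.Agent.LT.T6.H392

end
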